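import Fermat.Agent.EigenLattice.Push
import Fermat.Agent.FlatModel.Transfer
import Fermat.Agent.Lowering.P7.Geometry

/-!
# Pull back of classes along the degeneracy maps
-/

set_option autoImplicit false
set_option linter.style.haveILetI false
set_option linter.unusedSectionVars false
set_option synthInstance.maxHeartbeats 400000
set_option maxHeartbeats 1000000

noncomputable section

open AlgebraicCurve ModularCurve

namespace FLTAgent.Entry

open FLTAgent.Curves FLTAgent.BadRed FLTAgent.Specialization
open FLTAgent.EigenLattice (pushPic pushPic_smul coe_heckeTors_frobenius)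
open FLTAgent.Lowering.P7 (swapAut swapAut_smul)
open FLTAgent.TorsionHom (heckeTors)

local notation "QA" => AlgebraicClosure ℚ
local notation "GG" => (AlgebraicClosure ℚ ≃ₐ[ℚ] AlgebraicClosure ℚ)
local notation "gal[" N "]" => arithmeticGalois (L := AlgebraicClosure ℚ) (modularFunctionFieldFull N)

section Compose

variable {K F F' : Type*} [Field K] [Field F] [Field F'] [Algebra K F] [Algebra K F']
  [HasPrincipalDivisors K F'] (φ ψ : F →ₐ[K] F') (hφ : φ.toRingHom.IsIntegral)
  (hψ : ψ.toRingHom.IsIntegral) (g : SemilinearAut K F') (hg : ∀ x, ψ x = g • φ x)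

include hg in
/-- Pull back along a map moved by an automorphism. -/
theorem pullbackAlong_comp_smul (D : Divisor K F) :
    Divisor.pullbackAlong ψ hψ D = g • Divisor.pullbackAlong φ hφ D := by
  refine Finsupp.ext fun w => ?_
  obtain ⟨u, rfl⟩ : ∃ u, w = g • u := ⟨g⁻¹ • w, (smul_inv_smul _ _).symm⟩
  rw [SemilinearAut.divisor_smul_apply_smul]
  have hord : ∀ x : F, (g • u).ord (ψ x) = u.ord (φ x) := fun x => by
    rw [hg, SemilinearAut.ord_smul]
  have hmem : ∀ x : F, ψ x ∈ (g • u).toValuationSubring ↔ φ x ∈ u.toValuationSubring := fun x => by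
    rw [hg, SemilinearAut.smul_toValuationSubring, ValuationSubring.smul_mem_pointwise_smul_iff]
  have hres : (letI := algebraAlong ψ; haveI := isScalarTower_along ψ;
        haveI := isIntegral_along ψ hψ; (g • u).restrict F) =
      (letI := algebraAlong φ; haveI := isScalarTower_along φ;
        haveI := isIntegral_along φ hφ; u.restrict F) := by
    refine Place.ext ?_
    ext x
    exact hmem x
  have hram : (letI := algebraAlong ψ; (g • u).ramificationIndex F) =
      (letI := algebraAlong φ; u.ramificationIndex F) := by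
    unfold Place.ramificationIndex
    congr 1
    ext n
    constructor
    · rintro ⟨hn, f, hf, he⟩
      exact ⟨hn, f, hf, (hord f).symm.trans he⟩
    · rintro ⟨hn, f, hf, he⟩
      exact ⟨hn, f, hf, (hord f).trans he⟩
  have e1 : Divisor.pullbackAlong ψ hψ D (g • u) =
      ((letI := algebraAlong ψ; (g • u).ramificationIndex F) : ℕ) *
        D (letI := algebraAlong ψ; haveI := isScalarTower_along ψ;
          haveI := isIntegral_along ψ hψ; (g • u).restrict F) := by
    letI := algebraAlong ψ
    haveI := isScalarTower_along ψ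
    haveI := isIntegral_along ψ hψ
    exact Divisor.pullback_apply D _
  have e2 : Divisor.pullbackAlong φ hφ D u =
      ((letI := algebraAlong φ; u.ramificationIndex F) : ℕ) *
        D (letI := algebraAlong φ; haveI := isScalarTower_along φ;
          haveI := isIntegral_along φ hφ; u.restrict F) := by
    letI := algebraAlong φ
    haveI := isScalarTower_along φ
    haveI := isIntegral_along φ hφ
    exact Divisor.pullback_apply D _
  rw [e1, e2, hres, hram]

end Compose

variable (N l : ℕ) [NeZero N] [NeZero l] [NeZero (N * l)]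

/-- Pull back of classes. -/
def pullPic (φ : modularFunctionFieldBar N →ₐ[QA] modularFunctionFieldBar (N * l)) :
    JZero N →+ JZero (N * l) :=
  haveI : HasPrincipalDivisors QA (modularFunctionFieldBar (N * l)) := hasPrincipalDivisors
  letI := algebraAlong φ
  haveI := isScalarTower_along φ
  haveI := isIntegral_along φ (Kronecker.isIntegralAlong φ)
  haveI : FundamentalIdentity QA (modularFunctionFieldBar N) (modularFunctionFieldBar (N * l)) :=
    Kronecker.fundamentalIdentityAlong φ (Kronecker.isIntegralAlong φ)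
  Pic0.pullbackHom (modularFunctionFieldBar (N * l))

variable {N l} (φ ψ : modularFunctionFieldBar N →ₐ[QA] modularFunctionFieldBar (N * l))

theorem pullPic_mk (D : Divisor.degZero (K := QA) (F := modularFunctionFieldBar N)) :
    haveI : HasPrincipalDivisors QA (modularFunctionFieldBar (N * l)) := hasPrincipalDivisors
    ∃ h : Divisor.pullbackAlong φ (Kronecker.isIntegralAlong φ) (D : Divisor _ _) ∈
        Divisor.degZero (K := QA) (F := modularFunctionFieldBar (N * l)),
      pullPic N l φ (Pic0.mk D) = Pic0.mk ⟨_, h⟩ := by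
  haveI : HasPrincipalDivisors QA (modularFunctionFieldBar (N * l)) := hasPrincipalDivisors
  exact ⟨Divisor.pullbackAlong_mem_degZero _ _ (Kronecker.fundamentalIdentityAlong φ _) D.2, rfl⟩

theorem pullPic_smul (σ : GG) (hg : ∀ x, φ (gal[N] σ • x) = gal[N * l] σ • φ x) (x : JZero N) :
    pullPic N l φ (σ • x) = σ • pullPic N l φ x := by
  haveI : HasPrincipalDivisors QA (modularFunctionFieldBar (N * l)) := hasPrincipalDivisors
  obtain ⟨D, rfl⟩ := Pic0.mk_surjective x
  rw [galois_smul_pic0_def, galois_smul_pic0_def, SemilinearAut.pic0_smul_mk (gal[N] σ) D]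
  obtain ⟨h, he⟩ := pullPic_mk φ (SemilinearAut.degZeroSMulHom (gal[N] σ) D)
  obtain ⟨h', he'⟩ := pullPic_mk φ D
  rw [he, he', SemilinearAut.pic0_smul_mk]
  refine congrArg Pic0.mk (Subtype.ext ?_)
  show Divisor.pullbackAlong φ _ _ = _
  rw [SemilinearAut.coe_degZeroSMulHom, SemilinearAut.coe_degZeroSMulHom]
  exact EigenLattice.pullbackAlong_smul φ _ (gal[N] σ) (gal[N * l] σ) hg _

/-- Push forward after pull back is the correspondence. -/
theorem pushPic_pullPic_mk (D : Divisor.degZero (K := QA) (F := modularFunctionFieldBar N)) :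
    haveI : HasPrincipalDivisors QA (modularFunctionFieldBar (N * l)) := hasPrincipalDivisors
    ∃ h : Divisor.correspondence φ ψ (Kronecker.isIntegralAlong φ) (Kronecker.isIntegralAlong ψ)
        (D : Divisor _ _) ∈ Divisor.degZero (K := QA) (F := modularFunctionFieldBar N),
      pushPic N l ψ (pullPic N l φ (Pic0.mk D)) = Pic0.mk ⟨_, h⟩ := by
  haveI : HasPrincipalDivisors QA (modularFunctionFieldBar (N * l)) := hasPrincipalDivisors
  obtain ⟨h, he⟩ := pullPic_mk φ D
  obtain ⟨h', he'⟩ := EigenLattice.pushPic_mk N l ψ ⟨_, h⟩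
  exact ⟨h', by rw [he, he']; rfl⟩

/-- The Hecke operator through the degeneracy maps. -/
theorem pushPic_alpha_pullPic_beta (x : JZero N) :
    pushPic N l (heckeAlphaBar QA N l) (pullPic N l (heckeBetaBar QA N l) x) =
      heckeOperatorAlong QA N l x := by
  haveI : HasPrincipalDivisors QA (modularFunctionFieldBar (N * l)) := hasPrincipalDivisors
  obtain ⟨D, rfl⟩ := Pic0.mk_surjective x
  obtain ⟨h, he⟩ := pushPic_pullPic_mk (heckeBetaBar QA N l) (heckeAlphaBar QA N l) D
  obtain ⟨h', he'⟩ := Kronecker.heckeOperatorAlong_mk N l (Kronecker.isIntegralAlong _)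
    (Kronecker.isIntegralAlong _) D
  rw [he, he']
  exact congrArg Pic0.mk (Subtype.ext rfl)

/-- Push forward after pull back along one map is the degree. -/
theorem pushPic_pullPic_self (x : JZero N) :
    pushPic N l φ (pullPic N l φ x) = finrankAlong QA φ • x := by
  haveI : HasPrincipalDivisors QA (modularFunctionFieldBar (N * l)) := hasPrincipalDivisors
  obtain ⟨D, rfl⟩ := Pic0.mk_surjective x
  obtain ⟨h, he⟩ := pushPic_pullPic_mk φ φ D
  rw [he, show finrankAlong QA φ • Pic0.mk D = Pic0.mk (finrankAlong QA φ • D) from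
    (map_nsmul (QuotientAddGroup.mk' _) _ D).symm]
  refine congrArg Pic0.mk (Subtype.ext ?_)
  show Divisor.correspondence φ φ _ _ _ = _
  rw [AddSubgroup.coe_nsmul, Divisor.correspondence_apply, ← natCast_zsmul]
  letI := algebraAlong φ
  haveI := isScalarTower_along φ
  haveI := isIntegral_along φ (Kronecker.isIntegralAlong φ)
  haveI : Module.Finite (modularFunctionFieldBar N) (modularFunctionFieldBar (N * l)) :=
    Kronecker.finiteAlong φ
  exact (FlatModel.mapRestrict_eq_pushforward _).trans (Specialization.mapRestrict_pullback _)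

section Swap

variable [Fact l.Prime] (hlN : ¬ l ∣ N)

/-- The exchange takes one pull back to the other. -/
theorem pullPic_beta (x : JZero N) :
    pullPic N l (heckeBetaBar QA N l) x =
      swapAut hlN • pullPic N l (heckeAlphaBar QA N l) x := by
  haveI : HasPrincipalDivisors QA (modularFunctionFieldBar (N * l)) := hasPrincipalDivisors
  obtain ⟨D, rfl⟩ := Pic0.mk_surjective x
  obtain ⟨h, he⟩ := pullPic_mk (heckeBetaBar QA N l) D
  obtain ⟨h', he'⟩ := pullPic_mk (heckeAlphaBar QA N l) D
  rw [he, he', SemilinearAut.pic0_smul_mk]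
  refine congrArg Pic0.mk (Subtype.ext ?_)
  show Divisor.pullbackAlong _ _ _ = _
  rw [SemilinearAut.coe_degZeroSMulHom]
  exact pullbackAlong_comp_smul _ _ _ _ _ (fun z => by
    rw [swapAut_smul]; exact (swapEnd_alpha hlN z).symm) _

theorem swapAut_smul_self (x : JZero (N * l)) : swapAut hlN • (swapAut hlN • x) = x := by
  rw [← mul_smul, show swapAut hlN * swapAut hlN = (1 : SemilinearAut QA (X0Bar (N * l))) from
    Subtype.ext (Prod.ext (RingEquiv.ext fun z => swapEnd_swapEnd hlN z)
      (RingEquiv.ext fun z => rfl)), one_smul]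

end Swap

/-- Pull back on torsion. -/
def pullTors (n : ℕ) (x : Pic0.torsion QA (modularFunctionFieldBar N) n) :
    Pic0.torsion QA (modularFunctionFieldBar (N * l)) n :=
  ⟨pullPic N l φ (x : JZero N), by
    rw [Pic0.mem_torsion, ← map_zsmul, Pic0.mem_torsion.1 x.2, map_zero]⟩

variable (hφ : ∀ (σ : GG) (x : modularFunctionFieldBar N),
  φ (gal[N] σ • x) = gal[N * l] σ • φ x)

include hφ in
theorem pullTors_heckeTors (n : ℕ) [NeZero n] (q : Nat.Primes) (hq : ¬ (q : ℕ) ∣ N * l)
    (hqn : ¬ (q : ℕ) ∣ n) (x : Pic0.torsion QA (modularFunctionFieldBar N) n) :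
    pullTors φ n (heckeTors n q x) = heckeTors n q (pullTors φ n x) := by
  obtain ⟨A, hA⟩ := Frobenius.exists_liesOverPrime (q : ℕ) q.2
  obtain ⟨σ, hσ⟩ := Frobenius.exists_isFrobeniusAt A (q : ℕ) q.2 hA
  refine Subtype.ext ?_
  rw [coe_heckeTors_frobenius n q hq hqn hA hσ]
  show pullPic N l φ (heckeTors n q x : JZero N) = _
  rw [coe_heckeTors_frobenius n q (fun h => hq (h.trans (dvd_mul_right N l))) hqn hA hσ, map_add,
    map_nsmul, pullPic_smul φ σ (hφ σ), pullPic_smul φ σ⁻¹ (hφ σ⁻¹)]
  rfl

end FLTAgent.Entry
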