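import Fermat.Agent.Entry.Interface
import Fermat.Agent.Entry.Assembly.Pull
import Fermat.Agent.Lowering.P7.Principle
import Fermat.Agent.Lowering.P1.Primes.Frobenius

/-!
# Two independent fixed eigenvectors after adding an auxiliary prime
-/

set_option autoImplicit false
set_option linter.style.haveILetI false
set_option linter.unusedSectionVars false
set_option synthInstance.maxHeartbeats 400000
set_option maxHeartbeats 1000000

noncomputable section

open AlgebraicCurve ModularCurve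

namespace FLTAgent.Entry

open Matrix FLTAgent.Curves FLTAgent.BadRed FLTAgent.Specialization
open FLTAgent.EigenLattice (pushPic GoodIdx evalGood opAct Ix galMx galMx_mulVec torsCoord
  torsCoord_heckeTors galMx_frobenius exists_level_galMx galMx_mul)
open FLTAgent.MazurPrinciple (eigenSpace classOf eigenSpaceRep coe_eigenSpaceRep galMx_mem
  smul_classOf classOf_injective classOf_smul classOf_zero exists_fixed_of_unipotent pow_relation
  hecke_classOf nsmul_classOf)
open FLTAgent.Lowering.P7 (Seen finrank_two eigenSpace_ne_bot_of_char swapAut)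
open FLTAgent.TorsionHom (heckeTors)

local notation "QA" => AlgebraicClosure ℚ
local notation "GG" => (AlgebraicClosure ℚ ≃ₐ[ℚ] AlgebraicClosure ℚ)

namespace Sys

variable {p : ℕ} [Fact p.Prime] (S : Sys p)

/-- The representation as endomorphisms. -/
def rho : GG →* Module.End (ZMod p) (Fin 2 → ZMod p) :=
  (Matrix.toLinAlgEquiv' (R := ZMod p) (n := Fin 2)).toMonoidHom.comp
    ((Units.coeHom _).comp S.rb)

theorem rho_apply (g : GG) :
    S.rho g = Matrix.toLin' (S.rb g : Matrix (Fin 2) (Fin 2) (ZMod p)) := rfl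

theorem trace_rho (g : GG) : LinearMap.trace (ZMod p) (Fin 2 → ZMod p) (S.rho g) = S.tr g := by
  rw [rho_apply, Matrix.trace_toLin'_eq]; rfl

theorem det_rho (g : GG) :
    LinearMap.det (S.rho g) = Matrix.det (S.rb g : Matrix (Fin 2) (Fin 2) (ZMod p)) := by
  rw [rho_apply, LinearMap.det_toLin']

/-- The determinant of a Frobenius element away from `p`. -/
theorem det_frobenius {l : ℕ} (hl : l.Prime) (hlp : l ≠ p) {V : ValuationSubring QA}
    (hV : V.LiesOverPrime l) {σ : GG} (hσ : V.IsFrobeniusAt σ l) :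
    Matrix.det (S.rb σ : Matrix (Fin 2) (Fin 2) (ZMod p)) = (l : ZMod p) := by
  have h1 : DetCyclo.CycloExponent p 1 σ
      (Matrix.det (S.rb σ : Matrix (Fin 2) (Fin 2) (ZMod p))).val :=
    fun ζ hζ => S.det_cyclo σ ζ (by rw [← hζ, pow_one])
  have h2 := (ZMod.natCast_eq_natCast_iff _ _ _).2
    (pow_one p ▸ h1.modEq (DetCyclo.cycloExponent_frobenius hl hlp hV hσ 1))
  rwa [ZMod.natCast_zmod_val] at h2

theorem ne_p_of_notMem {l : ℕ} (h : l ∉ S.bad) : l ≠ p := fun e => h (e ▸ S.p_mem)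

variable [NeZero p] {N : ℕ} [NeZero N] (κ : QA →+* ℂ) {a : ℕ → ℤ}

/-- An element agrees with a power of a Frobenius element at a good prime on both modules. -/
theorem exists_frobenius_pow (g : GG) :
    ∃ (ℓ : ℕ) (A : ValuationSubring QA) (τ : GG) (k : ℕ), ℓ.Prime ∧ ¬ ℓ ∣ N ∧ ℓ ∉ S.bad ∧
      A.LiesOverPrime ℓ ∧ A.IsFrobeniusAt τ ℓ ∧ S.rb g = S.rb τ ^ k ∧
      galMx (N := N) κ p g = galMx (N := N) κ p (τ ^ k) := by
  obtain ⟨L₁, hL₁, h1⟩ := S.level
  obtain ⟨L₂, hL₂, h2⟩ := exists_level_galMx (N := N) κ p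
  haveI := hL₁
  haveI := hL₂
  obtain ⟨ℓ, A, τ, k, hℓ, hℓS, hA, hτ, hg⟩ :=
    Frobenius.exists_frobenius_pow_eqOn (L₁ ⊔ L₂) g (S.bad ∪ N.primeFactors)
  have hfix : ∀ x ∈ L₁ ⊔ L₂, ((τ ^ k)⁻¹ * g) x = x := fun x hx => by
    rw [AlgEquiv.mul_apply, hg x hx]
    exact (τ ^ k).symm_apply_apply x
  refine ⟨ℓ, A, τ, k, hℓ, fun h => hℓS (Finset.mem_union_right _
    (Nat.mem_primeFactors.2 ⟨hℓ, h, NeZero.ne N⟩)), fun h => hℓS (Finset.mem_union_left _ h),
    hA, hτ, ?_, ?_⟩
  · conv_lhs => rw [← mul_inv_cancel_left (τ ^ k) g, map_mul, map_pow]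
    rw [h1 _ fun y hy => hfix y ((le_sup_left : L₁ ≤ L₁ ⊔ L₂) hy), mul_one]
  · conv_lhs => rw [← mul_inv_cancel_left (τ ^ k) g, galMx_mul]
    rw [h2 _ fun y hy => hfix y ((le_sup_right : L₂ ≤ L₁ ⊔ L₂) hy), mul_one]

/-- Every element satisfies its characteristic relation on the eigenspace. -/
theorem eigen_relation (hE : ∀ r : ℕ, r.Prime → ¬ r ∣ N → r ∉ S.bad → ∀ V : ValuationSubring QA,
      V.LiesOverPrime r → ∀ σ : GG, V.IsFrobeniusAt σ r → S.tr σ = (a r : ZMod p)) (g : GG) :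
    eigenSpaceRep N κ p S.bad a g * eigenSpaceRep N κ p S.bad a g -
      S.tr g • eigenSpaceRep N κ p S.bad a g +
      Matrix.det (S.rb g : Matrix (Fin 2) (Fin 2) (ZMod p)) • 1 = 0 := by
  obtain ⟨ℓ, A, τ, k, hℓ, hℓN, hℓS, hA, hτ, e1, e2⟩ := exists_frobenius_pow (N := N) S κ g
  have e3 : eigenSpaceRep N κ p S.bad a g = eigenSpaceRep N κ p S.bad a τ ^ k := by
    rw [← map_pow]
    exact LinearMap.ext fun v => Subtype.ext (by rw [coe_eigenSpaceRep, coe_eigenSpaceRep, e2])
  have e4 : S.rho g = S.rho τ ^ k := by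
    rw [← map_pow]
    show Matrix.toLin' (S.rb g : Matrix (Fin 2) (Fin 2) (ZMod p)) = Matrix.toLin' _
    rw [e1, ← map_pow S.rb]
    rfl
  rw [← trace_rho, ← det_rho, e4, e3]
  refine pow_relation finrank_two (S.rho τ) _ ?_ k
  rw [trace_rho, det_rho, hE ℓ hℓ hℓN hℓS A hA τ hτ,
    S.det_frobenius hℓ (S.ne_p_of_notMem hℓS) hA hτ]
  refine LinearMap.ext fun v => Subtype.ext ?_
  have hℓp : ¬ ℓ ∣ p := fun h =>
    S.ne_p_of_notMem hℓS ((Nat.prime_dvd_prime_iff_eq hℓ Fact.out).1 h)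
  have h := congrArg (fun X => X *ᵥ (v : Ix N → ZMod p))
    (galMx_frobenius (N := N) κ p hℓ hℓN hℓp hA hτ)
  rw [Matrix.add_mulVec, Matrix.sub_mulVec, ← Matrix.mulVec_mulVec, ← Matrix.mulVec_mulVec,
    galMx_mem N κ p S.bad a τ v.2 ⟨ℓ, hℓ⟩ hℓN hℓS, Matrix.smul_mulVec, Matrix.one_mulVec,
    Matrix.zero_mulVec] at h
  simp only [LinearMap.add_apply, LinearMap.sub_apply, LinearMap.smul_apply, Module.End.mul_apply,
    Module.End.one_apply, LinearMap.zero_apply, Submodule.coe_add, Submodule.coe_sub,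
    Submodule.coe_smul, Submodule.coe_zero, coe_eigenSpaceRep]
  exact h

/-- An auxiliary prime whose Frobenius elements have determinant minus one and nonzero trace. -/
theorem exists_aux (hp2 : p ≠ 2) (T : Finset ℕ) :
    ∃ (l : ℕ) (V : ValuationSubring QA) (τ : GG), l.Prime ∧ l ∉ T ∧ V.LiesOverPrime l ∧
      V.IsFrobeniusAt τ l ∧ Matrix.det (S.rb τ : Matrix (Fin 2) (Fin 2) (ZMod p)) = -1 ∧
      S.tr τ ≠ 0 := by
  obtain ⟨L₁, hL₁, h1⟩ := S.level
  haveI := hL₁
  obtain ⟨σ, hσ⟩ := S.special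
  let L := IntermediateField.normalClosure ℚ L₁ QA
  haveI : Algebra.IsAlgebraic ℚ QA := AlgebraicClosure.isAlgebraic ℚ
  haveI : IsAlgClosure ℚ QA := ⟨inferInstance, inferInstance⟩
  haveI : Normal ℚ QA := IsAlgClosure.normal ℚ _
  haveI : Normal ℚ L := normalClosure.normal ℚ L₁ QA
  obtain ⟨q, V, τ, i, j, hq, hqT, hV, hτ, hj, hi⟩ :=
    Lowering.P1.Primes.exists_frobenius_zpowers L σ T
  have hker : ∀ g ∈ L.fixingSubgroup, S.rb g = 1 := fun g hg => h1 g fun x hx =>
    (IntermediateField.mem_fixingSubgroup_iff L g).1 hg x (IntermediateField.le_normalClosure L₁ hx)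
  have eτ : S.rb τ = S.rb σ ^ j := by
    have h := hker _ hj
    rw [map_mul, map_inv, inv_mul_eq_one, map_pow] at h
    exact h.symm
  have eσ : S.rb σ = S.rb τ ^ i := by
    have h := hker _ hi
    rw [map_mul, map_inv, inv_mul_eq_one, map_pow] at h
    exact h.symm
  set g : Matrix (Fin 2) (Fin 2) (ZMod p) := (S.rb σ : Matrix (Fin 2) (Fin 2) (ZMod p)) with hg
  set B : Matrix (Fin 2) (Fin 2) (ZMod p) := (S.rb τ : Matrix (Fin 2) (Fin 2) (ZMod p)) with hB
  have eB : B = g ^ j := by rw [hB, eτ, Units.val_pow_eq_pow_val]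
  have eg : g = B ^ i := by rw [hg, eσ, Units.val_pow_eq_pow_val]
  have hdg : g.det = -1 := by rw [hσ, Matrix.det_fin_two_of]; ring
  have hne : (-1 : ZMod p) ≠ 1 := fun h => hp2 (by
    have h2 : ((2 : ℕ) : ZMod p) = 0 := by push_cast; linear_combination -h
    exact (Nat.prime_dvd_prime_iff_eq Fact.out Nat.prime_two).1
      ((ZMod.natCast_eq_zero_iff 2 p).1 h2))
  have hdB : B.det = -1 := by
    rcases neg_one_pow_eq_or (ZMod p) j with h | h
    · exfalso
      have h3 : g.det = B.det ^ i := by rw [eg, Matrix.det_pow]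
      rw [eB, Matrix.det_pow, hdg, h, one_pow] at h3
      exact hne h3
    · rw [eB, Matrix.det_pow, hdg, h]
  refine ⟨q, V, τ, hq, hqT, hV, hτ, hdB, fun htr => ?_⟩
  -- otherwise the square of the special element is one
  have hBB : B * B = 1 := by
    have h00 : B 0 0 + B 1 1 = 0 := by rw [← Matrix.trace_fin_two]; exact htr
    rw [Matrix.det_fin_two] at hdB
    ext a b
    fin_cases a <;> fin_cases b <;> simp [Matrix.mul_apply, Fin.sum_univ_two]
    · linear_combination B 0 0 * h00 - hdB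
    · linear_combination B 0 1 * h00
    · linear_combination B 1 0 * h00
    · linear_combination B 1 1 * h00 - hdB
  have hgg : g * g = 1 := by
    rw [eg, ← pow_add, ← two_mul, pow_mul, pow_two, hBB, one_pow]
  have h01 := congrFun (congrFun hgg 0) 1
  rw [hσ] at h01
  simp [Matrix.mul_apply, Fin.sum_univ_two] at h01

end Sys

section Pair

variable {N l p : ℕ} [NeZero N] [NeZero l] [Fact l.Prime] [NeZero (N * l)] [Fact p.Prime] [NeZero p]
  {S : Finset ℕ} {a : ℕ → ℤ}

theorem classOf_add {n : ℕ} [NeZero n] (κ : QA →+* ℂ) (v w : Ix n → ZMod p) :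
    classOf n κ p (v + w) = classOf n κ p v + classOf n κ p w := by
  rw [classOf, map_add]; rfl

/-- The pull back of an eigenvector. -/
theorem exists_pull_vec (κ : QA →+* ℂ) (φ : modularFunctionFieldBar N →ₐ[QA] modularFunctionFieldBar (N * l))
    (hφ : ∀ (σ : GG) (x : modularFunctionFieldBar N),
      φ (arithmeticGalois (L := QA) (modularFunctionFieldFull N) σ • x) =
        arithmeticGalois (L := QA) (modularFunctionFieldFull (N * l)) σ • φ x)
    (hpS : p ∈ S) {x : Ix N → ZMod p} (hx : x ∈ eigenSpace N p S a) :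
    ∃ u ∈ eigenSpace (N * l) p (insert l S) a,
      classOf (N * l) κ p u = pullPic N l φ (classOf N κ p x) := by
  set c := (torsCoord (N := N) κ p).symm x with hc
  refine ⟨torsCoord κ p (pullTors φ p c), fun q hq hqS => ?_, ?_⟩
  · rw [Finset.mem_insert, not_or] at hqS
    have hqp : ¬ (q : ℕ) ∣ p := fun h =>
      hqS.2 ((Nat.prime_dvd_prime_iff_eq q.2 Fact.out).1 h ▸ hpS)
    have hqN : ¬ (q : ℕ) ∣ N := fun h => hq (h.trans (dvd_mul_right N l))
    have h1 : heckeTors p q c = a q • c := (torsCoord (N := N) κ p).injective (by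
      rw [torsCoord_heckeTors, map_zsmul, hc, AddEquiv.apply_symm_apply, hx q hqN hqS.2,
        Int.cast_smul_eq_zsmul])
    show MazurPrinciple.heckeP (N * l) p _ *ᵥ _ = _
    rw [MazurPrinciple.heckeP, ← torsCoord_heckeTors, ← pullTors_heckeTors φ hφ p q hq hqp, h1,
      Int.cast_smul_eq_zsmul]
    exact (congrArg (torsCoord (N := N * l) κ p)
      (Subtype.ext (map_zsmul (pullPic N l φ) (a q) (c : JZero N)) :
        pullTors φ p (a q • c) = a q • pullTors φ p c)).trans (map_zsmul _ _ _)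
  · rw [classOf, AddEquiv.symm_apply_apply]
    rfl

/-- The two pull backs of a fixed eigenvector are independent and fixed. -/
theorem exists_pair (hlN : ¬ l ∣ N) (hpS : p ∈ S) (hl1 : (l : ZMod p) + 1 = 0)
    (ha : (a l : ZMod p) ≠ 0) (hlS : l ∉ S) {A : ValuationSubring QA}
    {x : Ix N → ZMod p} (hx : x ∈ eigenSpace N p S a) (hx0 : x ≠ 0)
    (hfix : ∀ τ ∈ A.inertiaSubgroupIn ℚ,
      τ • classOf N Kronecker.complexEmb p x = classOf N Kronecker.complexEmb p x) :
    ∃ u v : Ix (N * l) → ZMod p,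
      u ∈ eigenSpace (N * l) p (insert l S) a ∧ v ∈ eigenSpace (N * l) p (insert l S) a ∧
      LinearIndependent (ZMod p) ![u, v] ∧
      ∀ τ ∈ A.inertiaSubgroupIn ℚ,
        τ • classOf (N * l) Kronecker.complexEmb p u =
          classOf (N * l) Kronecker.complexEmb p u ∧
        τ • classOf (N * l) Kronecker.complexEmb p v =
          classOf (N * l) Kronecker.complexEmb p v := by
  set κ := Kronecker.complexEmb
  set α := heckeAlphaBar QA N l
  set β := heckeBetaBar QA N l
  have hαc : ∀ (σ : GG) z, α (arithmeticGalois (L := QA) (modularFunctionFieldFull N) σ • z) =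
      arithmeticGalois (L := QA) (modularFunctionFieldFull (N * l)) σ • α z :=
    fun σ z => EigenLattice.alpha_compat N l σ z
  have hβc : ∀ (σ : GG) z, β (arithmeticGalois (L := QA) (modularFunctionFieldFull N) σ • z) =
      arithmeticGalois (L := QA) (modularFunctionFieldFull (N * l)) σ • β z :=
    fun σ z => EigenLattice.beta_compat N l σ z
  obtain ⟨u, hu, eu⟩ := exists_pull_vec κ α hαc hpS hx
  obtain ⟨v, hv, ev⟩ := exists_pull_vec κ β hβc hpS hx
  refine ⟨u, v, hu, hv, ?_, fun τ hτ => ⟨?_, ?_⟩⟩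
  · set X := classOf N κ p x
    have hT : pushPic N l α (classOf (N * l) κ p v) = a l • X := by
      rw [ev, pushPic_alpha_pullPic_beta]
      exact hecke_classOf N κ p S a hx l Fact.out hlN hlS
    have hD : pushPic N l α (classOf (N * l) κ p u) = (l + 1) • X := by
      rw [eu, pushPic_pullPic_self, (Kronecker.finrankAlong_alpha N l hlN).2]
    have hswap : swapAut hlN • classOf (N * l) κ p u = classOf (N * l) κ p v ∧
        swapAut hlN • classOf (N * l) κ p v = classOf (N * l) κ p u := by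
      have h := pullPic_beta hlN (classOf N κ p x)
      rw [← eu, ← ev] at h
      exact ⟨h.symm, by rw [h, swapAut_smul_self]⟩
    have key : ∀ s t : ℕ, s • classOf (N * l) κ p u + t • classOf (N * l) κ p v = 0 →
        (t : ZMod p) = 0 := by
      intro s t h
      have h' := congrArg (pushPic N l α) h
      rw [map_add, map_nsmul, map_nsmul, map_zero, hT, hD, ← natCast_zsmul X (l + 1),
        ← natCast_zsmul _ s, ← natCast_zsmul _ t, smul_smul, smul_smul] at h'
      set m : ℤ := (s : ℤ) * ((l + 1 : ℕ) : ℤ) + (t : ℤ) * a l with hm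
      replace h' : m • X = 0 := (add_zsmul X _ _).trans h'
      have h2 : classOf N κ p ((m : ZMod p) • x) = 0 := by
        rw [classOf, Int.cast_smul_eq_zsmul, map_zsmul]; exact h'
      have h3 : (m : ZMod p) • x = 0 :=
        classOf_injective N κ p (h2.trans (classOf_zero N κ p).symm)
      have h4 : (m : ZMod p) = 0 := (smul_eq_zero.1 h3).resolve_right hx0
      rw [hm] at h4
      push_cast at h4
      rw [hl1, mul_zero, zero_add] at h4
      exact (mul_eq_zero.1 h4).resolve_right ha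
    rw [LinearIndependent.pair_iff]
    intro s t hst
    have h : s.val • classOf (N * l) κ p u + t.val • classOf (N * l) κ p v = 0 := by
      rw [← classOf_smul, ← classOf_smul, ZMod.natCast_zmod_val, ZMod.natCast_zmod_val,
        ← classOf_add, hst, classOf_zero]
    have ht := key _ _ h
    have hs : ((s.val : ℕ) : ZMod p) = 0 := by
      refine key t.val s.val ?_
      have h5 := congrArg (swapAut hlN • ·) h
      simp only [smul_add, smul_comm (swapAut hlN) (s.val : ℕ),
        smul_comm (swapAut hlN) (t.val : ℕ), hswap.1, hswap.2] at h5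
      rw [add_comm]; exact h5
    rw [ZMod.natCast_zmod_val] at hs ht
    exact ⟨hs, ht⟩
  · rw [eu, ← pullPic_smul α τ (hαc τ), hfix τ hτ]
  · rw [ev, ← pullPic_smul β τ (hβc τ), hfix τ hτ]

/-- The same at an equal level. -/
theorem exists_pair_cast {N' : ℕ} [NeZero N'] (he : N * l = N') (hlN : ¬ l ∣ N) (hpS : p ∈ S)
    (hl1 : (l : ZMod p) + 1 = 0) (ha : (a l : ZMod p) ≠ 0) (hlS : l ∉ S) {A : ValuationSubring QA}
    {x : Ix N → ZMod p} (hx : x ∈ eigenSpace N p S a) (hx0 : x ≠ 0)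
    (hfix : ∀ τ ∈ A.inertiaSubgroupIn ℚ,
      τ • classOf N Kronecker.complexEmb p x = classOf N Kronecker.complexEmb p x) :
    ∃ u v : Ix N' → ZMod p,
      u ∈ eigenSpace N' p (insert l S) a ∧ v ∈ eigenSpace N' p (insert l S) a ∧
      LinearIndependent (ZMod p) ![u, v] ∧
      ∀ τ ∈ A.inertiaSubgroupIn ℚ,
        τ • classOf N' Kronecker.complexEmb p u = classOf N' Kronecker.complexEmb p u ∧
        τ • classOf N' Kronecker.complexEmb p v = classOf N' Kronecker.complexEmb p v := by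
  subst he
  exact exists_pair hlN hpS hl1 ha hlS hx hx0 hfix

end Pair

/-- After adding an auxiliary prime the system has two independent fixed eigenvectors. -/
theorem targetFixedPair : TargetFixedPair := by
  intro p _ _ S q M _ _ hp2 hq hqp hqM hU hbad hseen
  classical
  obtain ⟨hN, θ, hθ⟩ := hseen
  haveI := hN
  obtain ⟨l, V, τ, hl, hlT, hV, hτ, hdet, htr⟩ :=
    S.exists_aux hp2 (S.bad ∪ (M * q).primeFactors)
  rw [Finset.mem_union, not_or] at hlT
  haveI : Fact l.Prime := ⟨hl⟩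
  haveI : NeZero l := ⟨hl.ne_zero⟩
  have hlMq : ¬ l ∣ M * q := fun h =>
    hlT.2 (Nat.mem_primeFactors.2 ⟨hl, h, mul_ne_zero (NeZero.ne M) (NeZero.ne q)⟩)
  have hdvd : ∀ r : ℕ, r.Prime → r ∣ M * q * q → r ∈ S.bad := fun r hr h =>
    hbad r hr ((hr.dvd_mul.1 h).elim id fun h' => h'.trans (dvd_mul_left q M))
  set a : ℕ → ℤ := fun r =>
    if h : r.Prime ∧ ¬ r ∣ M * q * q ∧ r ∉ (↑S.bad : Set ℕ) then
      ((θ (CuspForm.heckeAlgebra.T h.1 h.2.1 h.2.2)).val : ℤ) else 0
  have haT : ∀ (r : ℕ) (hr : r.Prime) (hrN : ¬ r ∣ M * q * q) (hrb : r ∉ (↑S.bad : Set ℕ)),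
      θ (CuspForm.heckeAlgebra.T hr hrN hrb) = (a r : ZMod p) := fun r hr hrN hrb => by
    simp only [a, dif_pos (show r.Prime ∧ ¬ r ∣ M * q * q ∧ r ∉ (↑S.bad : Set ℕ) from
      ⟨hr, hrN, hrb⟩), Int.cast_natCast, ZMod.natCast_zmod_val]
  have hsys : ∀ r : ℕ, r.Prime → r ∉ S.bad → ∀ W : ValuationSubring QA, W.LiesOverPrime r →
      ∀ σ : GG, W.IsFrobeniusAt σ r → S.tr σ = (a r : ZMod p) := fun r hr hrb W hW σ hσ =>
    (hθ r hr (fun h => hrb (hdvd r hr h)) (fun h => hrb (Finset.mem_coe.1 h)) W hW σ hσ).symm.trans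
      (haT r hr _ _)
  have hlp : l ≠ p := S.ne_p_of_notMem hlT.1
  have hl1 : (l : ZMod p) + 1 = 0 := by
    rw [← S.det_frobenius hl hlp hV hτ, hdet, neg_add_cancel]
  have hal : (a l : ZMod p) ≠ 0 := hsys l hl hlT.1 V hV τ hτ ▸ htr
  have hl3 : p = 3 → l % 3 = 2 := by
    intro h3
    subst h3
    have h := (ZMod.natCast_eq_zero_iff (l + 1) 3).1 (by push_cast; exact hl1)
    omega
  refine ⟨l, a, inferInstance, hl, hlMq, hlT.1, hl3, fun r hr hrb W hW σ hσ =>
    hsys r hr (fun h => hrb (Finset.mem_insert_of_mem h)) W hW σ hσ, fun A hA => ?_⟩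
  have hlN : ¬ l ∣ M * q * q := fun h => hlT.1 (hdvd l hl h)
  -- a fixed vector
  haveI : Nontrivial (eigenSpace (M * q * q) p S.bad a) :=
    Submodule.nontrivial_iff_ne_bot.2 (eigenSpace_ne_bot_of_char θ haT)
  obtain ⟨w, hw0, hw⟩ := exists_fixed_of_unipotent
    (eigenSpaceRep (M * q * q) Kronecker.complexEmb p S.bad a) (A.inertiaSubgroupIn ℚ) fun g hg => by
      obtain ⟨ht, hd⟩ := hU A hA g hg
      have h := S.eigen_relation (N := M * q * q) Kronecker.complexEmb
        (fun r hr _ hrb W hW σ hσ => hsys r hr hrb W hW σ hσ) g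
      rw [show S.tr g = 2 from ht, hd, one_smul, two_smul] at h
      rw [sub_mul, mul_sub, mul_one, one_mul, ← h]
      abel
  haveI : NeZero (M * q * q * l) := ⟨mul_ne_zero (NeZero.ne _) (NeZero.ne l)⟩
  exact exists_pair_cast (N := M * q * q) (l := l) (by ring) hlN S.p_mem hl1 hal hlT.1 w.2
    (fun h => hw0 (Subtype.ext h)) fun g hg => by
      rw [smul_classOf, ← coe_eigenSpaceRep, hw g hg]

end FLTAgent.Entry
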