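import Fermat.Agent.Entry.Assembly.FixedPair
import Fermat.Agent.ModLift.LowerAway.Smooth

/-!
# Lowering the square of a prime congruent to minus one

Two independent fixed eigenvectors and the classes from the lower level do not fit in the fixed
classes.
-/

set_option autoImplicit false
set_option linter.style.haveILetI false
set_option linter.unusedSectionVars false
set_option synthInstance.maxHeartbeats 400000
set_option maxHeartbeats 1000000

noncomputable section

open AlgebraicCurve ModularCurve IsLocalRing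

namespace FLTAgent.Entry

open Matrix FLTAgent.Curves FLTAgent.BadRed FLTAgent.Specialization
open FLTAgent.EigenLattice (pushPic GoodIdx evalGood opAct Ix torsCoord torsCoord_opAct)
open FLTAgent.MazurPrinciple (eigenSpace classOf classOf_injective classOf_zero nsmul_classOf
  evalGood_mulVec systemEval pushPic_classOf)
open FLTAgent.Lowering.P7 (Seen exists_killed fullCAlgebra laurentAlgebra x0BarAlgebra good)

local notation "QA" => AlgebraicClosure ℚ
local notation "GG" => (AlgebraicClosure ℚ ≃ₐ[ℚ] AlgebraicClosure ℚ)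

attribute [local instance 2000] fullCAlgebra laurentAlgebra x0BarAlgebra

/-- Lowering `q²` for `q ≡ -1` from the counts of fixed classes. -/
theorem targetLowerSqNeg_of (hB : TargetFixedBound) (hO : TargetOldImage) (hP : TargetFixedPair) :
    TargetLowerSqNeg := by
  intro p _ S q M hp2 hq hqp hM hqM hU hbad hpq hseen
  classical
  haveI : Fact q.Prime := ⟨hq⟩
  haveI : NeZero q := ⟨hq.ne_zero⟩
  haveI : NeZero M := ⟨hM.ne'⟩
  haveI : NeZero p := ⟨(Fact.out : p.Prime).ne_zero⟩
  obtain ⟨l, a, _, hl, hlMq, hlb, hl3, hsys, hpair⟩ := hP p S q M hp2 hq hqp hqM hU hbad hseen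
  haveI : Fact l.Prime := ⟨hl⟩
  refine ⟨l, hl.squarefree, (hl.coprime_iff_not_dvd).2 hlMq, ?_⟩
  rw [hl.primeFactors, show S.bad ∪ {l} = insert l S.bad by
    rw [Finset.union_comm, Finset.insert_eq]]
  by_contra hnot
  rw [not_or] at hnot
  haveI : NeZero (M * l) := ⟨mul_ne_zero (NeZero.ne M) (NeZero.ne l)⟩
  haveI : NeZero (M * l * q) := ⟨mul_ne_zero (NeZero.ne _) (NeZero.ne q)⟩
  haveI : NeZero (M * l * q * q) := ⟨mul_ne_zero (NeZero.ne _) (NeZero.ne q)⟩
  have hpb : p ∈ insert l S.bad := Finset.mem_insert_of_mem S.p_mem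
  have hprimes : ∀ r : ℕ, r.Prime → r ∣ M * l * q * q → r ∈ insert l S.bad := fun r hr h => by
    rcases hr.dvd_mul.1 h with h | h
    · rcases hr.dvd_mul.1 h with h | h
      · rcases hr.dvd_mul.1 h with h | h
        · exact Finset.mem_insert_of_mem (hbad r hr (h.trans (dvd_mul_right M q)))
        · exact ((Nat.prime_dvd_prime_iff_eq hr hl).1 h) ▸ Finset.mem_insert_self _ _
      · exact Finset.mem_insert_of_mem (hbad r hr (h.trans (dvd_mul_left q M)))
    · exact Finset.mem_insert_of_mem (hbad r hr (h.trans (dvd_mul_left q M)))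
  obtain ⟨P, hP0, hPa⟩ := exists_killed (p := p) (a := a) (N := M * l * q * q)
    (M := M * l * q) (dvd_mul_right _ q) hprimes
    (fun r hr _ hrb V hV σ hσ => hsys r hr hrb V hV σ hσ) hnot.1
  have hqMl : ¬ q ∣ M * l := fun h => by
    rcases hq.dvd_mul.1 h with h | h
    · exact hqM h
    · exact hlMq (((Nat.prime_dvd_prime_iff_eq hq hl).1 h) ▸ dvd_mul_left q M)
  obtain ⟨A, hA⟩ := Frobenius.exists_liesOverPrime q hq
  haveI : IsAlgClosed (ResidueField A) := FrobTrace.isAlgClosed_residueField A
  haveI : CharP (ResidueField A) q := FrobTrace.charP_residueField hA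
  haveI := isFunctionField_full (ResidueField A) (M * l) rfl
    (BadRed.natCast_ne_zero hqMl (ResidueField A))
  have hsm := ModLift.LowerAway.smooth_any hqMl hA
  obtain ⟨N⟩ := (good hqMl hA hsm).nonempty_nodes
  obtain ⟨Z, hZle, hZcard, hZkill⟩ := hO q (M * l) p hqMl hp2 hpq
    (fun h3 => ⟨l, hl, dvd_mul_left l M, hl3 h3⟩) A hA hsm N Kronecker.complexEmb (insert l S.bad)
    fun r hr h => ((Nat.prime_dvd_prime_iff_eq hr Fact.out).1 h) ▸ hpb
  have hbound := hB q (M * l) p hqMl hp2 hpq A hA hsm N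
  obtain ⟨u, v, hu, hv, hli, hfix⟩ := hpair A hA
  set κ := Kronecker.complexEmb
  set X := Xfix (M * l * q) q A p
  have hXu : classOf (M * l * q * q) κ p u ∈ X ∧ classOf (M * l * q * q) κ p v ∈ X := by
    refine ⟨mem_Xfix.2 ⟨nsmul_classOf _ κ p u, fun τ hτ => (hfix τ hτ).1, ?_, ?_⟩,
      mem_Xfix.2 ⟨nsmul_classOf _ κ p v, fun τ hτ => (hfix τ hτ).2, ?_, ?_⟩⟩
    · exact pushPic_classOf κ p _ a _
        (fun σ x => EigenLattice.alpha_compat (M * l * q) q σ x) hpb P hP0 hPa hu
    · exact pushPic_classOf κ p _ a _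
        (fun σ x => EigenLattice.beta_compat (M * l * q) q σ x) hpb P hP0 hPa hu
    · exact pushPic_classOf κ p _ a _
        (fun σ x => EigenLattice.alpha_compat (M * l * q) q σ x) hpb P hP0 hPa hv
    · exact pushPic_classOf κ p _ a _
        (fun σ x => EigenLattice.beta_compat (M * l * q) q σ x) hpb P hP0 hPa hv
  -- combinations of the pair
  let f : (Fin 2 → ZMod p) →+ JZero (M * l * q * q) :=
    AddMonoidHom.mk' (fun c => classOf (M * l * q * q) κ p (c 0 • u + c 1 • v)) fun c d => by
      rw [← classOf_add]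
      congr 1
      simp only [Pi.add_apply, add_smul]
      abel
  have hf : ∀ c, f c ∈ X := fun c => by
    show classOf _ κ p (c 0 • u + c 1 • v) ∈ X
    rw [classOf_add, ← ZMod.natCast_zmod_val (c 0), ← ZMod.natCast_zmod_val (c 1),
      MazurPrinciple.classOf_smul, MazurPrinciple.classOf_smul]
    exact add_mem (X.nsmul_mem hXu.1 _) (X.nsmul_mem hXu.2 _)
  have hdisj : ∀ c, f c ∈ Z → c = 0 := by
    intro c hc
    have h1 := hZkill P hP0 ((torsCoord (N := M * l * q * q) κ p).symm (c 0 • u + c 1 • v)) hc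
    have h2 := congrArg (torsCoord (N := M * l * q * q) κ p) h1
    rw [map_zero, torsCoord_opAct, AddEquiv.apply_symm_apply,
      evalGood_mulVec _ p _ a P (add_mem (Submodule.smul_mem _ _ hu) (Submodule.smul_mem _ _ hv))]
      at h2
    have h3 := (smul_eq_zero.1 h2).resolve_left hPa
    rw [LinearIndependent.pair_iff] at hli
    obtain ⟨h4, h5⟩ := hli _ _ h3
    funext i
    fin_cases i
    · exact h4
    · exact h5
  let F : Z × (Fin 2 → ZMod p) → X := fun zc =>
    ⟨(zc.1 : JZero (M * l * q * q)) + f zc.2, add_mem (hZle zc.1.2) (hf _)⟩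
  have hF : Function.Injective F := by
    rintro ⟨z, c⟩ ⟨z', c'⟩ h
    have h1 : (z : JZero (M * l * q * q)) + f c = (z' : JZero (M * l * q * q)) + f c' :=
      congrArg Subtype.val h
    have h2 : f (c - c') = (z' : JZero (M * l * q * q)) - z := by
      rw [map_sub, sub_eq_sub_iff_add_eq_add, add_comm, h1]
    have h3 := sub_eq_zero.1 (hdisj _ (h2 ▸ sub_mem z'.2 z.2))
    subst h3
    exact Prod.ext (Subtype.ext (add_right_cancel h1)) rfl
  haveI := EigenReps.finite_torsion (M * l * q * q) p
  haveI : Finite X := Finite.of_injective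
    (fun x : X => (⟨x.1, Pic0.mem_torsion.2 (by
      rw [natCast_zsmul]; exact (mem_Xfix.1 x.2).1)⟩ :
        Pic0.torsion QA (modularFunctionFieldBar (M * l * q * q)) p))
    fun x y h => Subtype.ext (congrArg Subtype.val h :)
  have h := Nat.card_le_card_of_injective F hF
  rw [Nat.card_prod, Nat.card_fun, Nat.card_zmod, Nat.card_fin] at h
  have h1 : p ^ (N.n - 1) * p ^ 2 ≤ p ^ (N.n - 1 + 1) :=
    ((Nat.mul_le_mul_right _ hZcard).trans h).trans hbound
  rw [← pow_add] at h1
  have h2 := (Nat.pow_le_pow_iff_right (Fact.out : p.Prime).one_lt).1 h1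
  omega

end FLTAgent.Entry
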