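import Fermat.Agent.Entry.Interface
import Fermat.Agent.ModLift.Image.Main
import Fermat.Agent.ModLift.Interface
import Fermat.Agent.EigenReps.Residual
import Fermat.Agent.CuspForms.Lifting
import Fermat.Agent.CuspForms.IntegralStructure
import Fermat.Agent.EigenLattice.MultOne
import Fermat.Agent.Frobenius.Global

/-!
# The system of a curve and residual modularity

The mod `p` representation of a semistable curve as a system; residual modularity at a level is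
the occurrence of its traces there, and by Chebotarev the finite set of avoided primes does not
matter.
-/

set_option autoImplicit false
set_option linter.style.haveILetI false
set_option linter.unusedSectionVars false
set_option synthInstance.maxHeartbeats 400000
set_option maxHeartbeats 1000000

noncomputable section

open scoped Classical
open Polynomial

namespace FLTAgent.Entry

open FLTAgent.TWPrimes.Res (matHom val_matHom)
open FLTAgent.ModLift (stdBasis)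
open FLTAgent.LevelMatch (resW)
open FLTAgent.Lowering.P7 (Seen)

local notation "QA" => AlgebraicClosure ℚ
local notation "GG" => (AlgebraicClosure ℚ ≃ₐ[ℚ] AlgebraicClosure ℚ)
local notation "ZZbar" => integralClosure ℤ ℂ

variable (W : WeierstrassCurve ℤ) (hΔ : W.Δ ≠ 0) (hW : W.IsSemistableModel) (p : ℕ)
  [hp : Fact p.Prime] (hp35 : p = 3 ∨ p = 5) (hirr : W.ModRepIsIrreducible p)

/-- The system of the curve with a given set of avoided primes. -/
def sysOf (bad : Finset ℕ) (hpb : p ∈ bad) : Sys p where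
  rb := matHom (resW W hΔ p) (stdBasis W hΔ p)
  level := ModLift.matHom_level W hΔ p (stdBasis W hΔ p)
  det_cyclo σ ζ hζ := by
    have h1 : Matrix.det (matHom (resW W hΔ p) (stdBasis W hΔ p) σ :
        Matrix (Fin 2) (Fin 2) (ZMod p)) = (ExtCitation.cycloExp p σ : ZMod p) :=
      ModLift.dt_matHom W hΔ p (stdBasis W hΔ p) σ
    rw [h1, ZMod.val_natCast, ← pow_eq_pow_mod _ hζ, Reducible.map_eq_pow_cycloExp p σ hζ]
  bad := bad
  p_mem := hpb
  special := by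
    obtain ⟨σ, hσ⟩ := ModLift.exists_toMatrix_eq W hΔ hW p hp35 hirr !![0, 1; 1, 1]
      (by simp [Matrix.det_fin_two_of])
    exact ⟨σ, (val_matHom _ _ σ).trans hσ⟩

variable {bad : Finset ℕ} (hpb : p ∈ bad)

theorem sysOf_rb : (sysOf W hΔ hW p hp35 hirr bad hpb).rb =
    matHom (resW W hΔ p) (stdBasis W hΔ p) := rfl

theorem sysOf_tr (σ : GG) : (sysOf W hΔ hW p hp35 hirr bad hpb).tr σ =
    Matrix.trace (matHom (resW W hΔ p) (stdBasis W hΔ p) σ :
      Matrix (Fin 2) (Fin 2) (ZMod p)) := rfl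

theorem sysOf_tr_eq {bad' : Finset ℕ} (hpb' : p ∈ bad') :
    (sysOf W hΔ hW p hp35 hirr bad' hpb').tr = (sysOf W hΔ hW p hp35 hirr bad hpb).tr := rfl

theorem unipotentAt_sysOf {q : ℕ} (hq : q.Prime) (hqp : q ≠ p) :
    (sysOf W hΔ hW p hp35 hirr bad hpb).UnipotentAt q := by
  intro V hV σ hσ
  have hp2 : p ≠ 2 := by rcases hp35 with rfl | rfl <;> norm_num
  have h := congrArg (LinearMap.toMatrixAlgEquiv (stdBasis W hΔ p))
    (ModLift.unipotent_inertia_mod W hΔ hW p hirr hp2 hq hqp hV hσ)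
  rw [map_mul, map_sub, map_one, map_zero] at h
  set A : Matrix (Fin 2) (Fin 2) (ZMod p) :=
    LinearMap.toMatrixAlgEquiv (stdBasis W hΔ p) ((resW W hΔ p).ρ σ)
  show A.trace = 2 ∧ A.det = 1
  have ht : (A - 1).trace = 0 :=
    (Matrix.isNilpotent_trace_of_isNilpotent ⟨2, by rw [pow_two, h]⟩).eq_zero
  have hd : (A - 1).det = 0 := by
    have h2 := congrArg Matrix.det h
    rw [Matrix.det_mul, Matrix.det_zero] at h2
    exact mul_self_eq_zero.mp h2
  rw [Matrix.trace_sub, Matrix.trace_one, Fintype.card_fin, sub_eq_zero] at ht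
  push_cast at ht
  refine ⟨ht, ?_⟩
  rw [Matrix.trace_fin_two] at ht
  simp [Matrix.det_fin_two] at hd
  rw [Matrix.det_fin_two]
  linear_combination hd + ht

theorem frobenius_sysOf {ℓ : ℕ} (hℓ : ℓ.Prime) (hgood : W.IsGoodPrimeFor ℓ) (hℓp : ℓ ≠ p)
    {V : ValuationSubring QA} (hV : V.LiesOverPrime ℓ) {τ : GG} (hτ : V.IsFrobeniusAt τ ℓ) :
    (sysOf W hΔ hW p hp35 hirr bad hpb).tr τ = (W.apOfModel ℓ : ZMod p) ∧
      Matrix.det ((sysOf W hΔ hW p hp35 hirr bad hpb).rb τ : Matrix (Fin 2) (Fin 2) (ZMod p)) =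
        (ℓ : ZMod p) := by
  haveI : Fact ℓ.Prime := ⟨hℓ⟩
  have h := LevelMatch.charpoly_resW_frobenius hΔ hgood (Ne.symm hℓp) hV hτ
  rw [← LinearMap.charpoly_toMatrix _ (stdBasis W hΔ p)] at h
  have h1 : ∀ A : Matrix (Fin 2) (Fin 2) (ZMod p), A.charpoly =
      X ^ 2 - C (W.apOfModel ℓ : ZMod p) * X + C (ℓ : ZMod p) →
      A.trace = (W.apOfModel ℓ : ZMod p) ∧ A.det = (ℓ : ZMod p) := by
    intro A hA
    rw [Matrix.trace_eq_neg_charpoly_coeff, Matrix.det_eq_sign_charpoly_coeff, hA]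
    simp [coeff_X_pow]
  exact h1 _ h

/-- An eigenform congruent to the curve gives a system of eigenvalues. -/
theorem seen_of_resMod {M : ℕ} [NeZero M] (hM : ∀ l : ℕ, l.Prime → l ∣ M → l ∈ bad)
    (hΔb : ∀ l : ℕ, l.Prime → (l : ℤ) ∣ W.Δ → l ∈ bad)
    (h : W.IsResiduallyModularOfLevel p M) :
    Seen M bad (sysOf W hΔ hW p hp35 hirr bad hpb).tr := by
  obtain ⟨f, 𝔪, hf, h𝔪, hp𝔪, hcong⟩ := h
  haveI : CharP (ZZbar ⧸ 𝔪) p := (CharP.charP_iff_prime_eq_zero hp.out).mpr (by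
    rw [← map_natCast (Ideal.Quotient.mk 𝔪)]; exact Ideal.Quotient.eq_zero_iff_mem.2 hp𝔪)
  set κ : ZMod p →+* ZZbar ⧸ 𝔪 := ZMod.castHom dvd_rfl _
  haveI : Nontrivial (ZZbar ⧸ 𝔪) := Ideal.Quotient.nontrivial_iff.2 h𝔪.ne_top
  set ψ : CuspForm.heckeAlgebra M 2 (↑bad : Set ℕ) →+* ZZbar ⧸ 𝔪 :=
    (Ideal.Quotient.mk 𝔪).comp (EigenReps.eigenCharInt hf _)
  have hT : ∀ (l : ℕ) (hl : l.Prime) (hlM : ¬ l ∣ M) (hlb : l ∉ (↑bad : Set ℕ)),
      ψ (CuspForm.heckeAlgebra.T hl hlM hlb) = κ (W.apOfModel l) := by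
    intro l hl hlM hlb
    obtain ⟨a, ha, hmem⟩ := hcong l hl (fun hd => hlb (hΔb l hl hd)) hlM (fun e => hlb (e ▸ hpb))
    rw [map_intCast, RingHom.comp_apply,
      show EigenReps.eigenCharInt hf _ (CuspForm.heckeAlgebra.T hl hlM hlb) = a from
        Subtype.ext ((EigenReps.coe_eigenCharInt_T hf hl hlM hlb).trans ha.symm),
      Ideal.Quotient.eq.2 hmem, map_intCast]
  have hmem : ∀ t, ψ t ∈ κ.range := by
    rintro ⟨t, ht⟩
    induction ht using Algebra.adjoin_induction with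
    | mem x hx =>
      rcases hx with ⟨l, hl, hlM, hlb, rfl⟩ | ⟨q, hqM, hq, hqb, rfl⟩
      · exact ⟨_, (hT l hl hlM hlb).symm⟩
      · exact absurd (hM q hq hqM) hqb
    | algebraMap c =>
      refine ⟨(c : ZMod p), ?_⟩
      have e : (⟨algebraMap ℤ _ c, Subalgebra.algebraMap_mem _ c⟩ :
          CuspForm.heckeAlgebra M 2 (↑bad : Set ℕ)) =
          (c : CuspForm.heckeAlgebra M 2 (↑bad : Set ℕ)) := Subtype.ext (by simp)
      exact ((congrArg ψ e).trans ((map_intCast ψ c).trans (map_intCast κ c).symm)).symm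
    | add x y hx hy ih ih' =>
      exact (map_add ψ ⟨x, hx⟩ ⟨y, hy⟩).symm ▸ add_mem ih ih'
    | mul x y hx hy ih ih' =>
      exact (map_mul ψ ⟨x, hx⟩ ⟨y, hy⟩).symm ▸ mul_mem ih ih'
  let e : ZMod p ≃+* κ.range := RingEquiv.ofBijective κ.rangeRestrict
    ⟨fun a b hab => κ.injective (congrArg Subtype.val hab), κ.rangeRestrict_surjective⟩
  refine ⟨inferInstance, e.symm.toRingHom.comp (ψ.codRestrict κ.range hmem),
    fun l hl hlM hlb V hV σ hσ => e.injective (Subtype.ext ?_)⟩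
  rw [RingHom.comp_apply, RingEquiv.toRingHom_eq_coe, RingEquiv.coe_toRingHom, e.apply_symm_apply]
  show ψ _ = κ _
  rw [hT l hl hlM hlb, (frobenius_sysOf W hΔ hW p hp35 hirr hpb hl
    (fun hd => hlb (hΔb l hl hd)) (fun e => hlb (e ▸ hpb)) hV hσ).1]

/-- A system of eigenvalues gives residual modularity, also at the finitely many avoided primes. -/
theorem resMod_of_seen {M : ℕ} (hM : ∀ l : ℕ, l.Prime → l ∣ M → l ∈ bad)
    (hΔb : ∀ l : ℕ, l.Prime → (l : ℤ) ∣ W.Δ → l ∈ bad)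
    (h : Seen M bad (sysOf W hΔ hW p hp35 hirr bad hpb).tr) :
    W.IsResiduallyModularOfLevel p M := by
  obtain ⟨hM0, θ, hθ⟩ := h
  haveI := hM0
  haveI := CuspForms.moduleFinite_heckeAlgebra M 2 (↑bad : Set ℕ)
  haveI := CuspForms.moduleFinite_heckeAlgebra M 2 (∅ : Set ℕ)
  obtain ⟨χ, 𝔪, h𝔪, hp𝔪, hχ⟩ := CuspForms.exists_lift_character θ
  set inc : CuspForm.heckeAlgebra M 2 (↑bad : Set ℕ) →+* CuspForm.heckeAlgebra M 2 (∅ : Set ℕ) :=
    (Subalgebra.inclusion (CuspForm.heckeAlgebra_mono (Set.empty_subset _))).toRingHom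
  obtain ⟨χH, hχH⟩ := EigenLattice.exists_extend_hom inc
    (((integralClosure ℤ ℂ).val.toRingHom).comp χ)
    (fun t ht => by
      rw [RingHom.mem_ker] at ht ⊢
      have : t = 0 := Subtype.ext (congrArg Subtype.val ht :)
      rw [this, map_zero])
  obtain ⟨g, hg, hgc⟩ :=
    CuspForms.exists_eigenform_of_ringHom (CuspForms.hasIntegralStructure M 2) χH
  have hcoef : ∀ (l : ℕ) (hl : l.Prime) (hlM : ¬ l ∣ M) (hlb : l ∉ (↑bad : Set ℕ)),
      (χ (CuspForm.heckeAlgebra.T hl hlM hlb) : ℂ) = ModularFormClass.qCoeff g l := by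
    intro l hl hlM hlb
    rw [hgc l hl, CuspForms.heckeGen, dif_neg hlM]
    exact (hχH (CuspForm.heckeAlgebra.T hl hlM hlb)).symm
  haveI := h𝔪
  letI : Field (ZZbar ⧸ 𝔪) := Ideal.Quotient.field 𝔪
  haveI : CharP (ZZbar ⧸ 𝔪) p := (CharP.charP_iff_prime_eq_zero hp.out).mpr (by
    rw [← map_natCast (Ideal.Quotient.mk 𝔪)]; exact Ideal.Quotient.eq_zero_iff_mem.2 hp𝔪)
  set κ : ZMod p →+* ZZbar ⧸ 𝔪 := ZMod.castHom dvd_rfl _
  obtain ⟨rg, ⟨L₁, hL₁, hfix₁⟩, hunr, hfrob⟩ :=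
    EigenReps.exists_residual hg (p := p) (Ideal.Quotient.mk 𝔪)
  set S := sysOf W hΔ hW p hp35 hirr bad hpb
  obtain ⟨L₂, hL₂, hfix₂⟩ := S.level
  haveI := hL₁; haveI := hL₂
  set rc : GG →* Matrix (Fin 2) (Fin 2) (ZZbar ⧸ 𝔪) :=
    κ.mapMatrix.toMonoidHom.comp ((Units.coeHom _).comp S.rb) with hrc
  have hrctr : ∀ σ, (rc σ).trace = κ (S.tr σ) := fun σ => by
    show ((S.rb σ : Matrix (Fin 2) (Fin 2) (ZMod p)).map κ).trace = _
    rw [Matrix.trace_fin_two, Sys.tr, Matrix.trace_fin_two, map_add]; rfl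
  have hrcdet : ∀ σ, (rc σ).det = κ (Matrix.det (S.rb σ : Matrix (Fin 2) (Fin 2) (ZMod p))) :=
    fun σ => (κ.map_det _).symm
  have hchar : ∀ σ, (rg σ).charpoly = (rc σ).charpoly := by
    refine Frobenius.charpoly_eq_of_frobenius_matrix rg rc (L₁ ⊔ L₂) (fun σ hσ => ⟨hfix₁ σ
      (fun x hx => hσ x ((le_sup_left : L₁ ≤ L₁ ⊔ L₂) hx)), ?_⟩) bad fun ℓ hℓ hℓb V hV τ hτ => ?_
    · rw [hrc, MonoidHom.comp_apply, MonoidHom.comp_apply,
        hfix₂ σ (fun x hx => hσ x ((le_sup_right : L₂ ≤ L₁ ⊔ L₂) hx))]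
      simp
    · have hℓp : ℓ ≠ p := fun e => hℓb (e ▸ hpb)
      have hℓM : ¬ ℓ ∣ M := fun e => hℓb (hM ℓ hℓ e)
      obtain ⟨a, ha, ht, hd⟩ := hfrob ℓ hℓ hℓM hℓp V hV τ hτ
      have hlb : ℓ ∉ (↑bad : Set ℕ) := hℓb
      have hgood : W.IsGoodPrimeFor ℓ := fun hdd => hℓb (hΔb ℓ hℓ hdd)
      obtain ⟨hSt, hSd⟩ := frobenius_sysOf W hΔ hW p hp35 hirr hpb hℓ hgood hℓp hV hτ
      have ha' : a = χ (CuspForm.heckeAlgebra.T hℓ hℓM hlb) :=
        Subtype.ext (ha.trans (hcoef ℓ hℓ hℓM hlb).symm)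
      have htr : Ideal.Quotient.mk 𝔪 a = κ (S.tr τ) := by
        rw [ha', hSt, map_intCast, ← map_intCast ((Ideal.Quotient.mk 𝔪).comp χ),
          RingHom.comp_apply, Ideal.Quotient.eq, ← map_sub]
        refine hχ _ ?_
        rw [map_sub, map_intCast, hθ ℓ hℓ hℓM hlb V hV τ hτ, hSt, sub_self]
      rw [Matrix.charpoly_fin_two, Matrix.charpoly_fin_two, ht, hd, hrctr, hrcdet, htr, hSd,
        map_natCast κ]
  have htrace : ∀ σ, (rg σ).trace = κ (S.tr σ) := fun σ => by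
    rw [← hrctr, Matrix.trace_eq_neg_charpoly_coeff, Matrix.trace_eq_neg_charpoly_coeff, hchar]
  refine ⟨g, 𝔪, hg, h𝔪, hp𝔪, fun ℓ hℓ hgood hℓM hℓp => ?_⟩
  obtain ⟨V, hV⟩ := Frobenius.exists_liesOverPrime ℓ hℓ
  obtain ⟨τ, hτ⟩ := Frobenius.exists_isFrobeniusAt V ℓ hℓ hV
  obtain ⟨a, ha, ht, -⟩ := hfrob ℓ hℓ hℓM hℓp V hV τ hτ
  refine ⟨a, ha, Ideal.Quotient.eq.1 ?_⟩
  rw [← ht, htrace, (frobenius_sysOf W hΔ hW p hp35 hirr hpb hℓ hgood hℓp hV hτ).1, map_intCast,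
    map_intCast]

end FLTAgent.Entry
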