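import Fermat.Agent.Entry.Assembly.Occur

/-!
# The entry from the lowering of one square

Induction on the number of primes dividing the level twice.
-/

set_option autoImplicit false
set_option linter.style.haveILetI false

noncomputable section

open scoped Classical

namespace FLTAgent.Entry

open FLTAgent.Lowering.P7 (Seen)

/-- A power of a prime in a squarefree coprime multiple already divides the number. -/
theorem pow_dvd_of_dvd_mul_squarefree {M L r k : ℕ} (hr : r.Prime) (hk : 2 ≤ k)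
    (hL : Squarefree L) (hco : Nat.Coprime L M) (h : r ^ k ∣ M * L) : r ^ k ∣ M := by
  by_cases hrL : r ∣ L
  · exfalso
    have hrM : ¬ r ∣ M := fun hd =>
      hr.one_lt.ne' (Nat.dvd_one.mp (hco ▸ Nat.dvd_gcd hrL hd))
    have h1 : r ^ k ∣ L :=
      (Nat.Coprime.pow_left k (hr.coprime_iff_not_dvd.mpr hrM)).dvd_of_dvd_mul_left h
    have h2 : r * r ∣ L := dvd_trans (by rw [← pow_two]; exact pow_dvd_pow r hk) h1
    exact hr.ne_one (Nat.isUnit_iff.mp (hL r h2))
  · exact (Nat.Coprime.pow_left k (hr.coprime_iff_not_dvd.mpr hrL)).dvd_of_dvd_mul_right h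

variable (W : WeierstrassCurve ℤ) (hΔ : W.Δ ≠ 0) (hW : W.IsSemistableModel) (p : ℕ)
  [hp : Fact p.Prime] (hp35 : p = 3 ∨ p = 5) (hirr : W.ModRepIsIrreducible p)

include hΔ hW hp35 hirr in
/-- One square less. -/
theorem exists_lower (hneg : TargetLowerSqNeg) (hone : TargetLowerSqOne)
    (hother : TargetLowerSqOther) {M₁ q : ℕ} (hM₁ : 0 < M₁) (hq : q.Prime) (hqp : q ≠ p)
    (hqM : ¬ q ∣ M₁) (hres : W.IsResiduallyModularOfLevel p (M₁ * q * q)) :
    ∃ L : ℕ, Squarefree L ∧ Nat.Coprime L M₁ ∧ W.IsResiduallyModularOfLevel p (M₁ * L) := by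
  have hp2 : p ≠ 2 := by rcases hp35 with rfl | rfl <;> norm_num
  haveI : NeZero (M₁ * q * q) :=
    ⟨mul_ne_zero (mul_ne_zero hM₁.ne' hq.ne_zero) hq.ne_zero⟩
  set bad : Finset ℕ := insert p ((M₁ * q).primeFactors ∪ W.Δ.natAbs.primeFactors) with hbad
  have hpb : p ∈ bad := Finset.mem_insert_self _ _
  have hbM : ∀ r : ℕ, r.Prime → r ∣ M₁ * q → r ∈ bad := fun r hr h =>
    Finset.mem_insert_of_mem (Finset.mem_union_left _
      (Nat.mem_primeFactors.mpr ⟨hr, h, mul_ne_zero hM₁.ne' hq.ne_zero⟩))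
  have hbD : ∀ r : ℕ, r.Prime → (r : ℤ) ∣ W.Δ → r ∈ bad := fun r hr h =>
    Finset.mem_insert_of_mem (Finset.mem_union_right _
      (Nat.mem_primeFactors.mpr ⟨hr, Int.natCast_dvd.mp h, Int.natAbs_ne_zero.mpr hΔ⟩))
  set S := sysOf W hΔ hW p hp35 hirr bad hpb with hS
  have hseen : Seen (M₁ * q * q) S.bad S.tr := by
    refine seen_of_resMod W hΔ hW p hp35 hirr hpb (fun r hr h => ?_) hbD hres
    rcases hr.dvd_mul.mp h with h | h
    · exact hbM r hr h
    · exact hbM r hr (dvd_mul_of_dvd_right h M₁)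
  have huni : S.UnipotentAt q := unipotentAt_sysOf W hΔ hW p hp35 hirr hpb hq hqp
  have hlow : Lowered S q M₁ := by
    by_cases h1 : p ∣ q + 1
    · exact hneg p S q M₁ hp2 hq hqp hM₁ hqM huni hbM h1 hseen
    · by_cases h2 : p ∣ q - 1
      · exact hone p S q M₁ hp2 hq hqp hM₁ hqM huni hbM h2 hseen
      · exact hother p S q M₁ hp2 hq hqp hM₁ hqM huni hbM h1 h2 hseen
  obtain ⟨L, hL, hco, hor⟩ := hlow
  have hco1 : Nat.Coprime L M₁ := hco.coprime_dvd_right (dvd_mul_right M₁ q)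
  have hcoq : Nat.Coprime L q := hco.coprime_dvd_right (dvd_mul_left q M₁)
  have hpb' : p ∈ bad ∪ L.primeFactors := Finset.mem_union_left _ hpb
  have hbD' : ∀ r : ℕ, r.Prime → (r : ℤ) ∣ W.Δ → r ∈ bad ∪ L.primeFactors := fun r hr h =>
    Finset.mem_union_left _ (hbD r hr h)
  have hbM' : ∀ r : ℕ, r.Prime → r ∣ M₁ * L * q → r ∈ bad ∪ L.primeFactors := by
    intro r hr h
    rcases hr.dvd_mul.mp h with h | h
    · rcases hr.dvd_mul.mp h with h | h
      · exact Finset.mem_union_left _ (hbM r hr (dvd_mul_of_dvd_left h q))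
      · exact Finset.mem_union_right _ (Nat.mem_primeFactors.mpr ⟨hr, h, hL.ne_zero⟩)
    · exact Finset.mem_union_left _ (hbM r hr (dvd_mul_of_dvd_right h M₁))
  rw [hS, ← sysOf_tr_eq W hΔ hW p hp35 hirr hpb hpb'] at hor
  rcases hor with h | h
  · refine ⟨L * q, Nat.squarefree_mul_iff.mpr ⟨hcoq, hL, hq.prime.squarefree⟩,
      Nat.Coprime.mul_left hco1 (hq.coprime_iff_not_dvd.mpr hqM), ?_⟩
    rw [← mul_assoc]
    exact resMod_of_seen W hΔ hW p hp35 hirr hpb' hbM' hbD' h
  · exact ⟨L, hL, hco1, resMod_of_seen W hΔ hW p hp35 hirr hpb'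
      (fun r hr h => hbM' r hr (dvd_mul_of_dvd_left h q)) hbD' h⟩

include hΔ hW hp35 hirr in
/-- Squarefree level from a level whose squared primes are different from `p`. -/
theorem exists_squarefree_level (hneg : TargetLowerSqNeg) (hone : TargetLowerSqOne)
    (hother : TargetLowerSqOther) (n : ℕ) : ∀ M : ℕ, 0 < M →
    (M.primeFactors.filter fun r => r ^ 2 ∣ M).card ≤ n →
    W.IsResiduallyModularOfLevel p M → ¬ p ^ 2 ∣ M →
    (∀ q : ℕ, q.Prime → q ≠ p → ¬ q ^ 3 ∣ M) →
    ∃ M' : ℕ, Squarefree M' ∧ W.IsResiduallyModularOfLevel p M' := by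
  induction n with
  | zero =>
    intro M hM hc hres _ _
    refine ⟨M, Nat.squarefree_iff_prime_squarefree.mpr fun r hr h => ?_, hres⟩
    have hmem : r ∈ M.primeFactors.filter fun r => r ^ 2 ∣ M :=
      Finset.mem_filter.mpr ⟨Nat.mem_primeFactors.mpr ⟨hr, dvd_of_mul_left_dvd h, hM.ne'⟩,
        by rwa [pow_two]⟩
    rw [Finset.card_eq_zero.mp (Nat.le_zero.mp hc)] at hmem
    exact Finset.notMem_empty r hmem
  | succ n ih =>
    intro M hM hc hres hp2 h3
    by_cases he : (M.primeFactors.filter fun r => r ^ 2 ∣ M).card ≤ n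
    · exact ih M hM he hres hp2 h3
    · obtain ⟨q, hqmem⟩ : (M.primeFactors.filter fun r => r ^ 2 ∣ M).Nonempty :=
        Finset.card_pos.mp (by omega)
      obtain ⟨hq1, hq2⟩ := Finset.mem_filter.mp hqmem
      have hq : q.Prime := Nat.prime_of_mem_primeFactors hq1
      have hqp : q ≠ p := fun e => hp2 (e ▸ hq2)
      obtain ⟨M₁, rfl⟩ := hq2
      have hM₁ : 0 < M₁ := Nat.pos_of_ne_zero fun e => by simp [e] at hM
      have hqM : ¬ q ∣ M₁ := fun h => h3 q hq hqp (by
        rw [pow_succ]; exact Nat.mul_dvd_mul_left _ h)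
      rw [show q ^ 2 * M₁ = M₁ * q * q by ring] at hres
      obtain ⟨L, hL, hco, hres'⟩ :=
        exists_lower W hΔ hW p hp35 hirr hneg hone hother hM₁ hq hqp hqM hres
      have hM₁L : M₁ ∣ q ^ 2 * M₁ := dvd_mul_left M₁ _
      refine ih (M₁ * L) (Nat.mul_pos hM₁ (Nat.pos_of_ne_zero hL.ne_zero)) ?_ hres'
        (fun h => hp2 ((pow_dvd_of_dvd_mul_squarefree hp.out le_rfl hL hco h).trans hM₁L))
        fun r hr hrp h => h3 r hr hrp
          ((pow_dvd_of_dvd_mul_squarefree hr (by norm_num) hL hco h).trans hM₁L)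
      have hsub : ((M₁ * L).primeFactors.filter fun r => r ^ 2 ∣ M₁ * L) ⊆
          ((q ^ 2 * M₁).primeFactors.filter fun r => r ^ 2 ∣ q ^ 2 * M₁).erase q := by
        intro r hr
        obtain ⟨hr1, hr2⟩ := Finset.mem_filter.mp hr
        have hrp := Nat.prime_of_mem_primeFactors hr1
        have h := pow_dvd_of_dvd_mul_squarefree hrp le_rfl hL hco hr2
        have hrM : r ∣ M₁ := (dvd_pow_self r two_ne_zero).trans h
        exact Finset.mem_erase.mpr ⟨fun e => hqM (e ▸ hrM), Finset.mem_filter.mpr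
          ⟨Nat.mem_primeFactors.mpr ⟨hrp, hrM.trans hM₁L, hM.ne'⟩, h.trans hM₁L⟩⟩
      have h1 := Finset.card_le_card hsub
      rw [Finset.card_erase_of_mem hqmem] at h1
      omega

/-- The entry from the three cases of the lowering of a square. -/
theorem targetEntry_of (hneg : TargetLowerSqNeg) (hone : TargetLowerSqOne)
    (hother : TargetLowerSqOther) : ModLift.TargetEntry := by
  intro p hp35 W hΔ hW hirr M₀ hM₀ hres hp2 h3
  haveI : Fact p.Prime := ⟨by rcases hp35 with rfl | rfl <;> norm_num⟩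
  exact exists_squarefree_level W hΔ hW p hp35 hirr hneg hone hother _ M₀
    (Nat.pos_of_neZero M₀) le_rfl hres hp2 h3

end FLTAgent.Entry
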